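import Fermat.Agent.S21.H.Perm

/-!
# Project ES, work package H: the induced cocycle

For a subgroup `Γ` of a group `G` and a homomorphism `φ : Γ → ℂ` we construct the induced
cocycle `coc g φ : G ⧸ Γ → ℂ` (Shapiro's lemma), `coc g φ x = φ (r(x)⁻¹ g r(g⁻¹ x))` where
`r : G ⧸ Γ → G` is a section.
-/

set_option autoImplicit false

namespace Fermat.Agent.S21.H

open Module

section Cocycle

variable {G : Type*} [Group G] (Γ : Subgroup G)

/-- extension by zero of a homomorphism on `Γ`. -/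
noncomputable def ext0 (φ : Additive Γ →+ ℂ) (g : G) : ℂ :=
  open Classical in if h : g ∈ Γ then φ (Additive.ofMul ⟨g, h⟩) else 0

lemma ext0_of_mem (φ : Additive Γ →+ ℂ) {g : G} (h : g ∈ Γ) :
    ext0 Γ φ g = φ (Additive.ofMul ⟨g, h⟩) := by
  simp [ext0, h]

lemma ext0_mul (φ : Additive Γ →+ ℂ) {g h : G} (hg : g ∈ Γ) (hh : h ∈ Γ) :
    ext0 Γ φ (g * h) = ext0 Γ φ g + ext0 Γ φ h := by
  rw [ext0_of_mem Γ φ hg, ext0_of_mem Γ φ hh, ext0_of_mem Γ φ (Γ.mul_mem hg hh), ← map_add]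
  rfl

lemma ext0_one (φ : Additive Γ →+ ℂ) : ext0 Γ φ 1 = 0 := by
  rw [ext0_of_mem Γ φ Γ.one_mem]
  exact map_zero φ

lemma ext0_inv (φ : Additive Γ →+ ℂ) {g : G} (hg : g ∈ Γ) :
    ext0 Γ φ g⁻¹ = - ext0 Γ φ g := by
  have h := ext0_mul Γ φ (Γ.inv_mem hg) hg
  rw [inv_mul_cancel, ext0_one] at h
  exact eq_neg_of_add_eq_zero_left h.symm

lemma ext0_conj (φ : Additive Γ →+ ℂ) {g h : G} (hg : g ∈ Γ) (hh : h ∈ Γ) :
    ext0 Γ φ (h⁻¹ * g * h) = ext0 Γ φ g := by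
  rw [ext0_mul Γ φ (Γ.mul_mem (Γ.inv_mem hh) hg) hh, ext0_mul Γ φ (Γ.inv_mem hh) hg,
    ext0_inv Γ φ hh]
  ring

lemma ext0_add (φ ψ : Additive Γ →+ ℂ) (g : G) :
    ext0 Γ (φ + ψ) g = ext0 Γ φ g + ext0 Γ ψ g := by
  by_cases h : g ∈ Γ
  · simp [ext0, h]
  · simp [ext0, h]

lemma ext0_smul (c : ℂ) (φ : Additive Γ →+ ℂ) (g : G) :
    ext0 Γ (c • φ) g = c * ext0 Γ φ g := by
  by_cases h : g ∈ Γ
  · simp [ext0, h]
  · simp [ext0, h]

/-- the element `r(x)⁻¹ g r(g⁻¹ x)` of `Γ`. -/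
noncomputable def kap (g : G) (x : G ⧸ Γ) : G :=
  (Quotient.out x)⁻¹ * g * Quotient.out (g⁻¹ • x)

lemma kap_mem (g : G) (x : G ⧸ Γ) : kap Γ g x ∈ Γ := by
  rw [kap, mul_assoc, ← QuotientGroup.eq, QuotientGroup.out_eq']
  have h := MulAction.Quotient.smul_mk Γ g (Quotient.out (g⁻¹ • x))
  rw [smul_eq_mul] at h
  rw [← h, QuotientGroup.out_eq', smul_inv_smul]

lemma kap_mul (g h : G) (x : G ⧸ Γ) :
    kap Γ (g * h) x = kap Γ g x * kap Γ h (g⁻¹ • x) := by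
  simp only [kap, mul_inv_rev, mul_smul]
  group

lemma kap_one (x : G ⧸ Γ) : kap Γ 1 x = 1 := by
  simp [kap]

/-- the induced cocycle, as a linear map in `φ`. -/
noncomputable def coc (g : G) : (Additive Γ →+ ℂ) →ₗ[ℂ] ((G ⧸ Γ) → ℂ) where
  toFun φ := fun x => ext0 Γ φ (kap Γ g x)
  map_add' φ ψ := by
    funext x
    simp [ext0_add]
  map_smul' c φ := by
    funext x
    simp [ext0_smul]

lemma coc_apply (g : G) (φ : Additive Γ →+ ℂ) (x : G ⧸ Γ) :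
    coc Γ g φ x = ext0 Γ φ (kap Γ g x) := rfl

lemma coc_mul (g h : G) (φ : Additive Γ →+ ℂ) :
    coc Γ (g * h) φ = coc Γ g φ + pm g (coc Γ h φ) := by
  funext x
  simp only [coc_apply, Pi.add_apply, pm_apply, kap_mul,
    ext0_mul Γ φ (kap_mem Γ g x) (kap_mem Γ h (g⁻¹ • x))]

lemma coc_one (φ : Additive Γ →+ ℂ) : coc Γ 1 φ = 0 := by
  funext x
  simp [coc_apply, kap_one, ext0_one]

lemma coc_pow (g : G) (n : ℕ) (φ : Additive Γ →+ ℂ) :
    coc Γ (g ^ n) φ = nrm g n (coc Γ g φ) := by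
  induction n with
  | zero => simp [coc_one, nrm_apply]
  | succ n ih => rw [pow_succ, coc_mul, ih, nrm_succ_apply]

lemma coc_inv (g : G) (φ : Additive Γ →+ ℂ) :
    coc Γ g⁻¹ φ = - pm g⁻¹ (coc Γ g φ) := by
  have h := coc_mul Γ g⁻¹ g φ
  rw [inv_mul_cancel, coc_one] at h
  exact eq_neg_of_add_eq_zero_left h.symm

lemma coc_of_fixed {g : G} {x : G ⧸ Γ} (hx : g • x = x) (φ : Additive Γ →+ ℂ) :
    coc Γ g φ x = ext0 Γ φ ((Quotient.out x)⁻¹ * g * Quotient.out x) := by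
  have h : g⁻¹ • x = x := by
    conv_lhs => rw [← hx]
    rw [inv_smul_smul]
  rw [coc_apply, kap, h]

lemma conj_out_mem {g : G} {x : G ⧸ Γ} (hx : g • x = x) :
    (Quotient.out x)⁻¹ * g * Quotient.out x ∈ Γ := by
  have h : g⁻¹ • x = x := by
    conv_lhs => rw [← hx]
    rw [inv_smul_smul]
  have h2 := kap_mem Γ g x
  rwa [kap, h] at h2

lemma out_one_mem : Quotient.out ((1 : G) : G ⧸ Γ) ∈ Γ := by
  have h : ((1 : G) : G ⧸ Γ) = ((Quotient.out ((1 : G) : G ⧸ Γ) : G) : G ⧸ Γ) :=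
    (QuotientGroup.out_eq' _).symm
  rw [QuotientGroup.eq] at h
  simpa using h

lemma smul_base {γ : G} (hγ : γ ∈ Γ) : γ • ((1 : G) : G ⧸ Γ) = ((1 : G) : G ⧸ Γ) := by
  rw [MulAction.Quotient.smul_mk, smul_eq_mul, mul_one, QuotientGroup.eq]
  simpa using Γ.inv_mem hγ

lemma coc_base {γ : G} (hγ : γ ∈ Γ) (φ : Additive Γ →+ ℂ) :
    coc Γ γ φ ((1 : G) : G ⧸ Γ) = φ (Additive.ofMul ⟨γ, hγ⟩) := by
  rw [coc_of_fixed Γ (smul_base Γ hγ), ext0_conj Γ φ hγ (out_one_mem Γ), ext0_of_mem Γ φ hγ]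

/-- if the cocycle of `φ` is the coboundary of `w` on generators, then `φ = 0`. -/
lemma eq_zero_of_coboundary {gens : Set G} (hgen : Subgroup.closure gens = ⊤)
    (φ : Additive Γ →+ ℂ) (w : G ⧸ Γ → ℂ)
    (h : ∀ g ∈ gens, coc Γ g φ = pm g w - w) : φ = 0 := by
  have hall : ∀ g : G, coc Γ g φ = pm g w - w := by
    intro g
    have hg : g ∈ Subgroup.closure gens := by rw [hgen]; trivial
    induction hg using Subgroup.closure_induction with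
    | mem x hx => exact h x hx
    | one => rw [coc_one, pm_one_apply, sub_self]
    | mul x y _ _ ihx ihy =>
      rw [coc_mul, ihx, ihy, map_sub, ← pm_mul_apply]
      abel
    | inv x _ ih =>
      rw [coc_inv, ih, map_sub, pm_inv_pm]
      abel
  apply AddMonoidHom.ext
  intro γ
  have hγ' : ((Additive.toMul γ : Γ) : G) ∈ Γ := (Additive.toMul γ).2
  have h1 := coc_base Γ hγ' φ
  rw [hall] at h1
  have h2 : ((Additive.toMul γ : Γ) : G)⁻¹ • ((1 : G) : G ⧸ Γ) = ((1 : G) : G ⧸ Γ) :=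
    smul_base Γ (Γ.inv_mem hγ')
  simp only [Pi.sub_apply, pm_apply, h2, sub_self] at h1
  exact h1.symm

end Cocycle

end Fermat.Agent.S21.H
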