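import Fermat.Agent.S21.H.Perm

/-!
# Project ES, work package H: the dimension count

`X` a finite transitive `G`-set, `G` generated by `S` and `T`, with `S²`, `(ST)³` and `T^m` acting
trivially on `X`.  We bound the dimension of the space of pairs `(a, b)` with
`(1 + S) a = 0`, `(1 + T + ... + T^(m-1)) b = 0`, `(1 + U + U²)(a + S b) = 0`, `U = ST`.
-/

set_option autoImplicit false

namespace Fermat.Agent.S21.H

open Module

section Count

variable {G : Type*} [Group G] {X : Type*} [MulAction G X] [Fintype X]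

/-- the space `A = ker (1 + S)`. -/
noncomputable abbrev spA (X : Type*) [MulAction G X] (S : G) : Submodule ℂ (X → ℂ) :=
  LinearMap.ker (nrm S 2 : (X → ℂ) →ₗ[ℂ] (X → ℂ))

/-- the space `B = ker (1 + T + ... + T^(m-1))`. -/
noncomputable abbrev spB (X : Type*) [MulAction G X] (T : G) (m : ℕ) : Submodule ℂ (X → ℂ) :=
  LinearMap.ker (nrm T m : (X → ℂ) →ₗ[ℂ] (X → ℂ))

/-- the map `(a, b) ↦ (1 + U + U²)(a + S b)` on `A × B`. -/
noncomputable def psi (X : Type*) [MulAction G X] (S T : G) (m : ℕ) :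
    (spA X S × spB X T m) →ₗ[ℂ] (X → ℂ) :=
  (nrm (S * T) 3) ∘ₗ ((spA X S).subtype ∘ₗ LinearMap.fst ℂ _ _
    + (pm S) ∘ₗ (spB X T m).subtype ∘ₗ LinearMap.snd ℂ _ _)

omit [Fintype X] in
lemma psi_apply (S T : G) (m : ℕ) (p : spA X S × spB X T m) :
    psi X S T m p = nrm (S * T) 3 ((p.1 : X → ℂ) + pm S (p.2 : X → ℂ)) := rfl

omit [Fintype X] in
lemma closure_S_ST {S T : G} (hgen : Subgroup.closure {S, T} = ⊤) :
    Subgroup.closure {S, S * T} = ⊤ := by
  rw [eq_top_iff, ← hgen, Subgroup.closure_le]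
  intro g hg
  rcases hg with rfl | hg
  · exact Subgroup.subset_closure (Set.mem_insert _ _)
  · rw [Set.mem_singleton_iff] at hg
    subst hg
    have h1 : S ∈ Subgroup.closure {S, S * g} := Subgroup.subset_closure (Set.mem_insert _ _)
    have h2 : S * g ∈ Subgroup.closure {S, S * g} :=
      Subgroup.subset_closure (Set.mem_insert_of_mem _ rfl)
    have h3 := Subgroup.mul_mem _ (Subgroup.inv_mem _ h1) h2
    rwa [inv_mul_cancel_left] at h3

lemma inv_inf_ker_aug_le_range_psi [MulAction.IsPretransitive G X] {S T : G} {m : ℕ}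
    (hgen : Subgroup.closure {S, T} = ⊤)
    (hS : ∀ x : X, S ^ 2 • x = x) (hT : ∀ x : X, T ^ m • x = x) :
    inv X (S * T) ⊓ LinearMap.ker (aug X) ≤ LinearMap.range (psi X S T m) := by
  rintro w ⟨hw1, hw2⟩
  rw [SetLike.mem_coe, mem_inv] at hw1
  rw [SetLike.mem_coe, LinearMap.mem_ker] at hw2
  -- `w' = w / 3`
  set w' : X → ℂ := (3 : ℂ)⁻¹ • w with hw'
  have hw'1 : pm (S * T) w' = w' := by rw [hw', map_smul, hw1]
  have hw'2 : aug X w' = 0 := by rw [hw', map_smul, hw2, smul_zero]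
  set W : Submodule ℂ (X → ℂ) :=
    LinearMap.range (pm S - LinearMap.id : (X → ℂ) →ₗ[ℂ] (X → ℂ))
      ⊔ LinearMap.range (pm (S * T) - LinearMap.id : (X → ℂ) →ₗ[ℂ] (X → ℂ)) with hW
  have hmem : w' ∈ W := by
    refine mem_of_aug_eq_zero (closure_S_ST hgen) W ?_ w' hw'2
    intro g hg v
    rcases hg with rfl | hg
    · exact Submodule.mem_sup_left ⟨v, rfl⟩
    · rw [Set.mem_singleton_iff] at hg
      subst hg
      exact Submodule.mem_sup_right ⟨v, rfl⟩
  obtain ⟨y₁, ⟨v₁, rfl⟩, y₂, ⟨v₂, rfl⟩, hsum⟩ := Submodule.mem_sup.mp hmem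
  simp only [LinearMap.sub_apply, LinearMap.id_apply] at hsum
  -- `a = S (v₁ + v₂) - (v₁ + v₂)`, `b = T v₂ - v₂`
  have ha : pm S (v₁ + v₂) - (v₁ + v₂) ∈ spA X S := by
    rw [LinearMap.mem_ker, nrm_pm_sub, pm_eq_self_of_trivial hS, sub_self]
  have hb : pm T v₂ - v₂ ∈ spB X T m := by
    rw [LinearMap.mem_ker, nrm_pm_sub, pm_eq_self_of_trivial hT, sub_self]
  refine ⟨(⟨_, ha⟩, ⟨_, hb⟩), ?_⟩
  rw [psi_apply]
  have h1 : (pm S (v₁ + v₂) - (v₁ + v₂)) + pm S (pm T v₂ - v₂) = w' := by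
    rw [← hsum, pm_mul_apply]
    simp only [map_add, map_sub]
    abel
  show nrm (S * T) 3 ((pm S (v₁ + v₂) - (v₁ + v₂)) + pm S (pm T v₂ - v₂)) = w
  rw [h1, nrm_of_invariant 3 hw'1, hw', smul_smul]
  norm_num

/-- the main dimension inequality. -/
lemma finrank_ker_psi_add_le [MulAction.IsPretransitive G X] {S T : G} {m : ℕ}
    (hgen : Subgroup.closure {S, T} = ⊤)
    (hS : ∀ x : X, S ^ 2 • x = x) (hT : ∀ x : X, T ^ m • x = x) :
    finrank ℂ (LinearMap.ker (psi X S T m)) + finrank ℂ (inv X (S * T))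
      ≤ finrank ℂ (spA X S) + finrank ℂ (spB X T m) + 1 := by
  have h1 : finrank ℂ (LinearMap.range (psi X S T m)) + finrank ℂ (LinearMap.ker (psi X S T m))
      = finrank ℂ (spA X S) + finrank ℂ (spB X T m) := by
    rw [LinearMap.finrank_range_add_finrank_ker (psi X S T m), Module.finrank_prod]
  have h2 := finrank_le_inf_ker_add_one (inv X (S * T)) (aug X)
  have h3 := Submodule.finrank_mono (inv_inf_ker_aug_le_range_psi (X := X) hgen hS hT)
  omega

lemma card_fix_pow_zero (g : G) : Nat.card {x : X // g ^ 0 • x = x} = Fintype.card X := by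
  rw [← Nat.card_eq_fintype_card]
  exact Nat.card_congr (Equiv.subtypeUnivEquiv fun x => by simp)

/-- `2 dim A + #Fix(S) = #X`. -/
lemma two_mul_finrank_spA {S : G} (hS : ∀ x : X, S ^ 2 • x = x) :
    2 * finrank ℂ (spA X S) + Nat.card {x : X // S • x = x} = Fintype.card X := by
  have h1 : finrank ℂ (spA X S) + finrank ℂ (inv X S) = Fintype.card X :=
    finrank_ker_nrm_add (n := 2) (by norm_num) hS
  have h2 := mul_finrank_inv (n := 2) (by norm_num) hS
  rw [Finset.sum_range_succ, Finset.sum_range_one, card_fix_pow_zero] at h2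
  simp only [pow_one] at h2
  omega

/-- `dim B + #orbits(T) = #X`. -/
lemma finrank_spB_add {T : G} {m : ℕ} (hm : m ≠ 0) (hT : ∀ x : X, T ^ m • x = x) :
    finrank ℂ (spB X T m) + Nat.card (MulAction.orbitRel.Quotient (Subgroup.zpowers T) X)
      = Fintype.card X := by
  rw [← finrank_inv_eq_card_orbits]
  exact finrank_ker_nrm_add hm hT

/-- `3 dim (invariants of U) = #X + 2 #Fix(U)` if `U³` acts trivially. -/
lemma three_mul_finrank_inv {U : G} (hU : ∀ x : X, U ^ 3 • x = x) :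
    3 * finrank ℂ (inv X U) = Fintype.card X + 2 * Nat.card {x : X // U • x = x} := by
  have h2 := mul_finrank_inv (n := 3) (by norm_num) hU
  rw [Finset.sum_range_succ, Finset.sum_range_succ, Finset.sum_range_one,
    card_fix_pow_zero] at h2
  simp only [pow_one] at h2
  have h3 : Nat.card {x : X // U ^ 2 • x = x} = Nat.card {x : X // U • x = x} := by
    refine Nat.card_congr (Equiv.subtypeEquivRight fun x => ?_)
    constructor
    · intro h
      have h4 := hU x
      rw [pow_succ', mul_smul, h] at h4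
      exact h4
    · intro h
      rw [pow_two, mul_smul, h, h]
  omega

end Count

end Fermat.Agent.S21.H
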