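import Fermat.Prelude.Def_ModularCurve_PeriodMap
import Fermat.Agent.S21.Defs
import Fermat.Agent.S21.H.Count
import Fermat.Agent.S21.H.Cocycle

/-!
# Project ES, work package H: `dim Hom_par(Γ, ℂ) ≤ 2 g(Γ)`

For a finite index subgroup `Γ` of `SL(2,ℤ)` containing `-1`, the space of parabolic
homomorphisms `Γ → ℂ` has dimension at most `2 * genusOf Γ`.
-/

set_option autoImplicit false

open scoped MatrixGroups
open ModularCurve.Period Module ModularGroup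

namespace Fermat.Agent.S21.H

section SL2Z

lemma S_sq_eq : (S : SL(2, ℤ)) ^ 2 = -1 := by
  ext i j
  fin_cases i <;> fin_cases j <;> simp [pow_two, coe_S, Matrix.mul_apply, Fin.sum_univ_two]

lemma ST_cube_eq : ((S : SL(2, ℤ)) * T) ^ 3 = -1 := by
  ext i j
  fin_cases i <;> fin_cases j <;>
    simp [pow_succ, coe_S, coe_T, Matrix.mul_apply, Fin.sum_univ_two]

lemma trace_neg_one_sq : ((-1 : SL(2, ℤ)) : Matrix (Fin 2) (Fin 2) ℤ).trace ^ 2 = 4 := by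
  simp [Matrix.trace]

lemma trace_T_pow_sq (m : ℕ) : ((T ^ m : SL(2, ℤ)) : Matrix (Fin 2) (Fin 2) ℤ).trace ^ 2 = 4 := by
  have h := coe_T_zpow (m : ℤ)
  rw [zpow_natCast] at h
  rw [h]
  simp [Matrix.trace, Fin.sum_univ_two]

lemma trace_conj (r g : SL(2, ℤ)) :
    ((r⁻¹ * g * r : SL(2, ℤ)) : Matrix (Fin 2) (Fin 2) ℤ).trace
      = (g : Matrix (Fin 2) (Fin 2) ℤ).trace := by
  rw [Matrix.SpecialLinearGroup.coe_mul, Matrix.trace_mul_comm,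
    ← Matrix.SpecialLinearGroup.coe_mul, mul_inv_cancel_left]

variable (Γ : Subgroup SL(2, ℤ))

lemma neg_one_smul_eq (hneg : -1 ∈ Γ) (x : SL(2, ℤ) ⧸ Γ) : (-1 : SL(2, ℤ)) • x = x := by
  induction x using QuotientGroup.induction_on with
  | H g =>
    rw [MulAction.Quotient.smul_mk, smul_eq_mul, QuotientGroup.eq]
    have h : ((-1 : SL(2, ℤ)) * g)⁻¹ * g = -1 := by simp
    rw [h]
    exact hneg

/-- parabolic homs kill the cocycle at fixed points of elements of trace `±2`. -/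
lemma coc_apply_eq_zero_of_parabolic {φ : Additive Γ →+ ℂ} (hφ : φ ∈ parabolicHoms ℂ Γ ℂ)
    {g : SL(2, ℤ)} (hg : (g : Matrix (Fin 2) (Fin 2) ℤ).trace ^ 2 = 4)
    {x : SL(2, ℤ) ⧸ Γ} (hx : g • x = x) : coc Γ g φ x = 0 := by
  rw [coc_of_fixed Γ hx, ext0_of_mem Γ φ (conj_out_mem Γ hx)]
  refine hφ ⟨_, conj_out_mem Γ hx⟩ ?_
  show (((Quotient.out x)⁻¹ * g * Quotient.out x : SL(2, ℤ)) :
    Matrix (Fin 2) (Fin 2) ℤ).trace ^ 2 = 4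
  rw [trace_conj]
  exact hg

lemma coc_eq_zero_of_parabolic {φ : Additive Γ →+ ℂ} (hφ : φ ∈ parabolicHoms ℂ Γ ℂ)
    {g : SL(2, ℤ)} (hg : (g : Matrix (Fin 2) (Fin 2) ℤ).trace ^ 2 = 4)
    (hx : ∀ x : SL(2, ℤ) ⧸ Γ, g • x = x) : coc Γ g φ = 0 :=
  funext fun x => coc_apply_eq_zero_of_parabolic Γ hφ hg (hx x)

end SL2Z

section Main

variable (Γ : Subgroup SL(2, ℤ))

/-- the combination `c_φ(g) + (g - 1) v`. -/
noncomputable def comb (g : SL(2, ℤ)) :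
    (parabolicHoms ℂ Γ ℂ × ((SL(2, ℤ) ⧸ Γ) → ℂ)) →ₗ[ℂ] ((SL(2, ℤ) ⧸ Γ) → ℂ) :=
  (coc Γ g) ∘ₗ (parabolicHoms ℂ Γ ℂ).subtype ∘ₗ LinearMap.fst ℂ _ _
    + (pm g - LinearMap.id) ∘ₗ LinearMap.snd ℂ _ _

lemma comb_apply (g : SL(2, ℤ))
    (p : parabolicHoms ℂ Γ ℂ × ((SL(2, ℤ) ⧸ Γ) → ℂ)) :
    comb Γ g p = coc Γ g (p.1 : Additive Γ →+ ℂ) + (pm g p.2 - p.2) := rfl

lemma nrm_comb (g : SL(2, ℤ)) (n : ℕ)
    (p : parabolicHoms ℂ Γ ℂ × ((SL(2, ℤ) ⧸ Γ) → ℂ)) :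
    nrm g n (comb Γ g p) = comb Γ (g ^ n) p := by
  rw [comb_apply, comb_apply, map_add, nrm_pm_sub, coc_pow]

lemma comb_mul (g h : SL(2, ℤ))
    (p : parabolicHoms ℂ Γ ℂ × ((SL(2, ℤ) ⧸ Γ) → ℂ)) :
    comb Γ (g * h) p = comb Γ g p + pm g (comb Γ h p) := by
  simp only [comb_apply, coc_mul, pm_mul_apply, map_add, map_sub]
  abel

lemma comb_eq_zero_of_trivial {g : SL(2, ℤ)}
    (hg : (g : Matrix (Fin 2) (Fin 2) ℤ).trace ^ 2 = 4)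
    (hx : ∀ x : SL(2, ℤ) ⧸ Γ, g • x = x)
    (p : parabolicHoms ℂ Γ ℂ × ((SL(2, ℤ) ⧸ Γ) → ℂ)) :
    comb Γ g p = 0 := by
  rw [comb_apply, coc_eq_zero_of_parabolic Γ p.1.2 hg hx, pm_eq_self_of_trivial hx, sub_self,
    add_zero]

/-- the parabolic homs inject into pairs of functions on `SL(2,ℤ) ⧸ Γ`. -/
lemma finiteDimensional_parabolicHoms [Γ.FiniteIndex] :
    FiniteDimensional ℂ (parabolicHoms ℂ Γ ℂ) := by
  classical
  have : Fintype (SL(2, ℤ) ⧸ Γ) := Fintype.ofFinite _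
  let J : parabolicHoms ℂ Γ ℂ →ₗ[ℂ] (((SL(2, ℤ) ⧸ Γ) → ℂ) × ((SL(2, ℤ) ⧸ Γ) → ℂ)) :=
    ((coc Γ S) ∘ₗ (parabolicHoms ℂ Γ ℂ).subtype).prod
      ((coc Γ T) ∘ₗ (parabolicHoms ℂ Γ ℂ).subtype)
  refine FiniteDimensional.of_injective J ?_
  rw [injective_iff_map_eq_zero]
  intro φ hφ
  have h1 : coc Γ S (φ : Additive Γ →+ ℂ) = 0 := congrArg Prod.fst hφ
  have h2 : coc Γ T (φ : Additive Γ →+ ℂ) = 0 := congrArg Prod.snd hφ
  have h3 : (φ : Additive Γ →+ ℂ) = 0 := by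
    refine eq_zero_of_coboundary Γ SpecialLinearGroup.SL2Z_generators _ 0 ?_
    intro g hg
    rcases hg with rfl | hg
    · rw [h1]; simp
    · rw [Set.mem_singleton_iff] at hg
      subst hg
      rw [h2]; simp
  exact Subtype.ext h3

theorem finrank_parabolicHoms_le_genusOf (Γ : Subgroup SL(2, ℤ)) [Γ.FiniteIndex]
    (hneg : -1 ∈ Γ) :
    FiniteDimensional ℂ (parabolicHoms ℂ Γ ℂ) ∧
      (Module.finrank ℂ (parabolicHoms ℂ Γ ℂ) : ℚ) ≤ 2 * genusOf Γ := by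
  classical
  have hfd : FiniteDimensional ℂ (parabolicHoms ℂ Γ ℂ) := finiteDimensional_parabolicHoms Γ
  refine ⟨hfd, ?_⟩
  letI : Fintype (SL(2, ℤ) ⧸ Γ) := Fintype.ofFinite _
  obtain ⟨m, hm, hT⟩ := exists_pow_trivial (X := SL(2, ℤ) ⧸ Γ) (T : SL(2, ℤ))
  have hS : ∀ x : SL(2, ℤ) ⧸ Γ, (S : SL(2, ℤ)) ^ 2 • x = x := by
    rw [S_sq_eq]; exact neg_one_smul_eq Γ hneg
  have hU : ∀ x : SL(2, ℤ) ⧸ Γ, ((S : SL(2, ℤ)) * T) ^ 3 • x = x := by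
    rw [ST_cube_eq]; exact neg_one_smul_eq Γ hneg
  -- the map `Φ`
  let Φ₁ : (parabolicHoms ℂ Γ ℂ × ((SL(2, ℤ) ⧸ Γ) → ℂ)) →ₗ[ℂ] spA (SL(2, ℤ) ⧸ Γ) S :=
    LinearMap.codRestrict (spA (SL(2, ℤ) ⧸ Γ) S) (comb Γ S) (fun p => by
      rw [LinearMap.mem_ker, nrm_comb, S_sq_eq]
      exact comb_eq_zero_of_trivial Γ trace_neg_one_sq (neg_one_smul_eq Γ hneg) p)
  let Φ₂ : (parabolicHoms ℂ Γ ℂ × ((SL(2, ℤ) ⧸ Γ) → ℂ)) →ₗ[ℂ] spB (SL(2, ℤ) ⧸ Γ) T m :=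
    LinearMap.codRestrict (spB (SL(2, ℤ) ⧸ Γ) T m) (comb Γ T) (fun p => by
      rw [LinearMap.mem_ker, nrm_comb]
      exact comb_eq_zero_of_trivial Γ (trace_T_pow_sq m) hT p)
  let Φ := Φ₁.prod Φ₂
  have hrange : LinearMap.range Φ ≤ LinearMap.ker (psi (SL(2, ℤ) ⧸ Γ) S T m) := by
    rintro _ ⟨p, rfl⟩
    rw [LinearMap.mem_ker, psi_apply]
    show nrm (S * T) 3 (comb Γ S p + pm S (comb Γ T p)) = 0
    rw [← comb_mul, nrm_comb, ST_cube_eq]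
    exact comb_eq_zero_of_trivial Γ trace_neg_one_sq (neg_one_smul_eq Γ hneg) p
  -- the kernel of `Φ` is at most one-dimensional
  let ι : ℂ →ₗ[ℂ] (parabolicHoms ℂ Γ ℂ × ((SL(2, ℤ) ⧸ Γ) → ℂ)) :=
    (LinearMap.inr ℂ _ _) ∘ₗ (LinearMap.pi fun _ : SL(2, ℤ) ⧸ Γ => (LinearMap.id : ℂ →ₗ[ℂ] ℂ))
  have hker : LinearMap.ker Φ ≤ LinearMap.range ι := by
    rintro ⟨φ, v⟩ hp
    rw [LinearMap.mem_ker] at hp
    have hp1 : comb Γ S (φ, v) = 0 := congrArg (fun q => (q.1 : (SL(2, ℤ) ⧸ Γ) → ℂ)) hp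
    have hp2 : comb Γ T (φ, v) = 0 := congrArg (fun q => (q.2 : (SL(2, ℤ) ⧸ Γ) → ℂ)) hp
    rw [comb_apply] at hp1 hp2
    simp only at hp1 hp2
    have h3 : (φ : Additive Γ →+ ℂ) = 0 := by
      refine eq_zero_of_coboundary Γ SpecialLinearGroup.SL2Z_generators _ (-v) ?_
      intro g hg
      rcases hg with rfl | hg
      · rw [map_neg]
        linear_combination (exp := 1) hp1
      · rw [Set.mem_singleton_iff] at hg
        subst hg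
        rw [map_neg]
        linear_combination (exp := 1) hp2
    rw [h3, map_zero, zero_add, sub_eq_zero] at hp1 hp2
    have hconst : ∀ x y : SL(2, ℤ) ⧸ Γ, v x = v y := by
      refine const_of_closure SpecialLinearGroup.SL2Z_generators ?_
      intro g hg
      rcases hg with rfl | hg
      · exact hp1
      · rw [Set.mem_singleton_iff] at hg
        subst hg
        exact hp2
    refine ⟨v ((1 : SL(2, ℤ)) : SL(2, ℤ) ⧸ Γ), ?_⟩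
    refine Prod.ext ?_ ?_
    · exact (Subtype.ext h3).symm
    · funext x
      exact hconst _ _
  have hker' : finrank ℂ (LinearMap.ker Φ) ≤ 1 := by
    have h1 := Submodule.finrank_mono hker
    have h2 := LinearMap.finrank_range_le ι
    rw [Module.finrank_self] at h2
    exact h1.trans h2
  have h1 : finrank ℂ (LinearMap.range Φ) + finrank ℂ (LinearMap.ker Φ)
      = finrank ℂ (parabolicHoms ℂ Γ ℂ) + Fintype.card (SL(2, ℤ) ⧸ Γ) := by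
    rw [LinearMap.finrank_range_add_finrank_ker Φ, Module.finrank_prod,
      Module.finrank_fintype_fun_eq_card]
  have h2 := Submodule.finrank_mono hrange
  have h3 := finrank_ker_psi_add_le (X := SL(2, ℤ) ⧸ Γ) (m := m)
    SpecialLinearGroup.SL2Z_generators hS hT
  have h4 := two_mul_finrank_spA (X := SL(2, ℤ) ⧸ Γ) hS
  have h5 := finrank_spB_add (X := SL(2, ℤ) ⧸ Γ) hm hT
  have h6 := three_mul_finrank_inv (X := SL(2, ℤ) ⧸ Γ) hU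
  have hidx : Γ.index = Fintype.card (SL(2, ℤ) ⧸ Γ) := by
    rw [Subgroup.index_eq_card, Nat.card_eq_fintype_card]
  rw [genusOf, fixCount, fixCount, cuspOrbitCount, hidx]
  have e1 : (finrank ℂ (parabolicHoms ℂ Γ ℂ) : ℚ) + Fintype.card (SL(2, ℤ) ⧸ Γ)
      ≤ finrank ℂ (LinearMap.ker (psi (SL(2, ℤ) ⧸ Γ) S T m)) + 1 := by
    have : finrank ℂ (parabolicHoms ℂ Γ ℂ) + Fintype.card (SL(2, ℤ) ⧸ Γ)
        ≤ finrank ℂ (LinearMap.ker (psi (SL(2, ℤ) ⧸ Γ) S T m)) + 1 := by omega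
    exact_mod_cast this
  have e3 : (finrank ℂ (LinearMap.ker (psi (SL(2, ℤ) ⧸ Γ) S T m)) : ℚ)
      + finrank ℂ (inv (SL(2, ℤ) ⧸ Γ) ((S : SL(2, ℤ)) * T))
      ≤ finrank ℂ (spA (SL(2, ℤ) ⧸ Γ) (S : SL(2, ℤ)))
        + finrank ℂ (spB (SL(2, ℤ) ⧸ Γ) (T : SL(2, ℤ)) m) + 1 := by
    exact_mod_cast h3
  have e4 : (2 : ℚ) * finrank ℂ (spA (SL(2, ℤ) ⧸ Γ) (S : SL(2, ℤ)))
      + Nat.card {x : SL(2, ℤ) ⧸ Γ // (S : SL(2, ℤ)) • x = x}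
      = Fintype.card (SL(2, ℤ) ⧸ Γ) := by
    exact_mod_cast h4
  have e5 : (finrank ℂ (spB (SL(2, ℤ) ⧸ Γ) (T : SL(2, ℤ)) m) : ℚ)
      + Nat.card (MulAction.orbitRel.Quotient (Subgroup.zpowers (T : SL(2, ℤ))) (SL(2, ℤ) ⧸ Γ))
      = Fintype.card (SL(2, ℤ) ⧸ Γ) := by
    exact_mod_cast h5
  have e6 : (3 : ℚ) * finrank ℂ (inv (SL(2, ℤ) ⧸ Γ) ((S : SL(2, ℤ)) * T))
      = Fintype.card (SL(2, ℤ) ⧸ Γ)
        + 2 * Nat.card {x : SL(2, ℤ) ⧸ Γ // ((S : SL(2, ℤ)) * T) • x = x} := by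
    exact_mod_cast h6
  linarith

end Main

end Fermat.Agent.S21.H
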