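import Mathlib.Analysis.Complex.Basic
import Mathlib.Algebra.BigOperators.Group.Finset.Basic
import Mathlib.Algebra.Group.Action.Defs

/-!
# Project ES, WP-H: formal parabolic cocycle data on a `G`-set

For a group `G` acting on `X` and two elements `S T : G`, `cocycleData S T` is the space of pairs
`(a, b)` of functions `X → ℂ` satisfying the three linear constraints that the values
`(c S, c T)` of a parabolic cocycle `c` (with `c (-1) = 0`) satisfy:

* `a + S • a = 0`                         (from `S² = -1`);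
* `e + U • e + U² • e = 0`, `e = a + S • b`, `U = S * T`   (from `(S T)³ = -1`);
* the sums of `b` along closed `T`-paths vanish  (parabolicity).
-/

set_option autoImplicit false

namespace Fermat.Agent.S21.H

variable {G : Type*} [Group G] {X : Type*} [MulAction G X]

/-- Formal parabolic cocycle data `(a, b) = (c S, c T)` on a `G`-set `X`. -/
def cocycleData (S T : G) : Submodule ℂ ((X → ℂ) × (X → ℂ)) where
  carrier := {p |
    (∀ x, p.1 x + p.1 (S • x) = 0) ∧
    (∀ x, (p.1 x + p.2 (S • x)) + (p.1 ((S * T) • x) + p.2 (S • (S * T) • x))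
        + (p.1 ((S * T) • (S * T) • x) + p.2 (S • (S * T) • (S * T) • x)) = 0) ∧
    (∀ (x : X) (n : ℕ), T ^ n • x = x → ∑ i ∈ Finset.range n, p.2 (T ^ i • x) = 0)}
  zero_mem' := by simp
  add_mem' := by
    rintro p q ⟨hp1, hp2, hp3⟩ ⟨hq1, hq2, hq3⟩
    refine ⟨fun x => ?_, fun x => ?_, fun x n hn => ?_⟩
    · simp only [Prod.fst_add, Pi.add_apply]; linear_combination hp1 x + hq1 x
    · simp only [Prod.fst_add, Prod.snd_add, Pi.add_apply]; linear_combination hp2 x + hq2 x
    · simp only [Prod.snd_add, Pi.add_apply, Finset.sum_add_distrib, hp3 x n hn, hq3 x n hn,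
        add_zero]
  smul_mem' := by
    rintro c p ⟨hp1, hp2, hp3⟩
    refine ⟨fun x => ?_, fun x => ?_, fun x n hn => ?_⟩
    · simp only [Prod.smul_fst, Pi.smul_apply, smul_eq_mul]; linear_combination c * hp1 x
    · simp only [Prod.smul_fst, Prod.smul_snd, Pi.smul_apply, smul_eq_mul]
      linear_combination c * hp2 x
    · simp only [Prod.smul_snd, Pi.smul_apply, smul_eq_mul, ← Finset.mul_sum, hp3 x n hn,
        mul_zero]

theorem mem_cocycleData {S T : G} {p : (X → ℂ) × (X → ℂ)} :
    p ∈ cocycleData (X := X) S T ↔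
      (∀ x, p.1 x + p.1 (S • x) = 0) ∧
      (∀ x, (p.1 x + p.2 (S • x)) + (p.1 ((S * T) • x) + p.2 (S • (S * T) • x))
          + (p.1 ((S * T) • (S * T) • x) + p.2 (S • (S * T) • (S * T) • x)) = 0) ∧
      (∀ (x : X) (n : ℕ), T ^ n • x = x → ∑ i ∈ Finset.range n, p.2 (T ^ i • x) = 0) :=
  Iff.rfl

end Fermat.Agent.S21.H
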