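import Mathlib

/-!
# Project ES, work package H: permutation representations (linear algebra)

For a group `G` acting on a type `X` we consider the permutation representation on `X → ℂ`,
`(pm g a) x = a (g⁻¹ • x)`, and compute the dimensions of a few invariant subspaces in terms of
numbers of fixed points / orbits.
-/

set_option autoImplicit false

namespace Fermat.Agent.S21.H

open Module

section Basic

variable {G : Type*} [Group G] {X : Type*} [MulAction G X]

/-- the permutation operator of `g` on functions: `(pm g a) x = a (g⁻¹ • x)` -/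
noncomputable def pm (g : G) : (X → ℂ) →ₗ[ℂ] (X → ℂ) :=
  LinearMap.funLeft ℂ ℂ (fun x => g⁻¹ • x)

@[simp] lemma pm_apply (g : G) (a : X → ℂ) (x : X) : pm g a x = a (g⁻¹ • x) := rfl

lemma pm_one_apply (a : X → ℂ) : pm (1 : G) a = a := by
  funext x; simp

lemma pm_mul_apply (g h : G) (a : X → ℂ) : pm (g * h) a = pm g (pm h a) := by
  funext x; simp [mul_smul]

lemma pm_inv_pm (g : G) (a : X → ℂ) : pm g⁻¹ (pm g a) = a := by
  rw [← pm_mul_apply, inv_mul_cancel, pm_one_apply]

lemma pm_pm_inv (g : G) (a : X → ℂ) : pm g (pm g⁻¹ a) = a := by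
  rw [← pm_mul_apply, mul_inv_cancel, pm_one_apply]

/-- if `g` acts trivially on `X`, then `pm g` is the identity. -/
lemma pm_eq_self_of_trivial {g : G} (hg : ∀ x : X, g • x = x) (a : X → ℂ) : pm g a = a := by
  funext x
  have h : g⁻¹ • x = x := by
    conv_lhs => rw [← hg x]
    rw [inv_smul_smul]
  simp [h]

/-- the "norm" operator `∑_{k < n} g^k`. -/
noncomputable def nrm (g : G) (n : ℕ) : (X → ℂ) →ₗ[ℂ] (X → ℂ) :=
  ∑ k ∈ Finset.range n, pm (g ^ k)

lemma nrm_apply (g : G) (n : ℕ) (a : X → ℂ) :
    nrm g n a = ∑ k ∈ Finset.range n, pm (g ^ k) a := by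
  simp [nrm, LinearMap.sum_apply]

lemma nrm_succ_apply (g : G) (n : ℕ) (a : X → ℂ) :
    nrm g (n + 1) a = nrm g n a + pm (g ^ n) a := by
  simp [nrm_apply, Finset.sum_range_succ]

/-- `(g - 1) ∘ nrm g n = g^n - 1`. -/
lemma nrm_pm_sub (g : G) (n : ℕ) (a : X → ℂ) :
    nrm g n (pm g a - a) = pm (g ^ n) a - a := by
  induction n with
  | zero => simp [nrm_apply, pm_one_apply]
  | succ n ih =>
    rw [nrm_succ_apply, ih, map_sub, ← pm_mul_apply, ← pow_succ]
    abel

lemma pm_nrm (g : G) (n : ℕ) (a : X → ℂ) :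
    pm g (nrm g n a) = nrm g n (pm g a) := by
  simp only [nrm_apply, map_sum, ← pm_mul_apply]
  refine Finset.sum_congr rfl fun k _ => ?_
  rw [← pow_succ, ← pow_succ']

/-- if `g^n` acts trivially, `nrm g n` maps into the `g`-invariants. -/
lemma pm_nrm_of_trivial {g : G} {n : ℕ} (hg : ∀ x : X, g ^ n • x = x) (a : X → ℂ) :
    pm g (nrm g n a) = nrm g n a := by
  have h := nrm_pm_sub g n a
  rw [pm_eq_self_of_trivial hg, sub_self, map_sub, sub_eq_zero, ← pm_nrm] at h
  exact h

lemma nrm_of_invariant {g : G} (n : ℕ) {a : X → ℂ} (ha : pm g a = a) :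
    nrm g n a = (n : ℂ) • a := by
  have hk : ∀ k : ℕ, pm (g ^ k) a = a := by
    intro k
    induction k with
    | zero => simp [pm_one_apply]
    | succ k ih => rw [pow_succ, pm_mul_apply, ha, ih]
  rw [nrm_apply, Finset.sum_congr rfl fun k _ => hk k, Finset.sum_const, Finset.card_range,
    Nat.cast_smul_eq_nsmul]

end Basic

section Trace

variable {G : Type*} [Group G] {X : Type*} [MulAction G X] [Fintype X]

/-- the trace of a permutation operator is the number of fixed points. -/
lemma trace_pm (g : G) :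
    LinearMap.trace ℂ (X → ℂ) (pm g) = (Nat.card {x : X // g • x = x} : ℂ) := by
  classical
  rw [LinearMap.trace_eq_matrix_trace ℂ (Pi.basisFun ℂ X), Matrix.trace]
  simp only [Matrix.diag_apply, LinearMap.toMatrix_apply, Pi.basisFun_repr, Pi.basisFun_apply,
    pm_apply, Pi.single_apply]
  rw [Finset.sum_boole, Nat.card_eq_fintype_card, Fintype.card_subtype]
  congr 2
  ext x
  simp only [Finset.mem_filter, Finset.mem_univ, true_and]
  constructor
  · intro h
    conv_lhs => rw [← h]
    rw [smul_inv_smul]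
  · intro h
    conv_lhs => rw [← h]
    rw [inv_smul_smul]

variable (X) in
/-- the invariants of `g`. -/
noncomputable def inv (g : G) : Submodule ℂ (X → ℂ) := LinearMap.ker (pm g - LinearMap.id)

omit [Fintype X] in
lemma mem_inv {g : G} {a : X → ℂ} : a ∈ inv X g ↔ pm g a = a := by
  simp [inv, LinearMap.mem_ker, sub_eq_zero]

/-- if `g ^ n` acts trivially on `X` (`n ≠ 0`), then `n⁻¹ • nrm g n` is a projection onto the
invariants of `g`. -/
lemma isProj_nrm {g : G} {n : ℕ} (hn : n ≠ 0) (hg : ∀ x : X, g ^ n • x = x) :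
    LinearMap.IsProj (inv X g) ((n : ℂ)⁻¹ • nrm g n) := by
  have hn' : (n : ℂ) ≠ 0 := Nat.cast_ne_zero.mpr hn
  refine ⟨fun a => ?_, fun a ha => ?_⟩
  · rw [mem_inv, LinearMap.smul_apply, map_smul, pm_nrm_of_trivial hg]
  · rw [mem_inv] at ha
    rw [LinearMap.smul_apply, nrm_of_invariant n ha, smul_smul, inv_mul_cancel₀ hn', one_smul]

/-- `n * dim (invariants of g) = ∑_{k<n} #Fix(g^k)` if `g ^ n` acts trivially. -/
lemma mul_finrank_inv {g : G} {n : ℕ} (hn : n ≠ 0) (hg : ∀ x : X, g ^ n • x = x) :
    n * finrank ℂ (inv X g) = ∑ k ∈ Finset.range n, Nat.card {x : X // g ^ k • x = x} := by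
  have hn' : (n : ℂ) ≠ 0 := Nat.cast_ne_zero.mpr hn
  have h := (isProj_nrm hn hg).trace
  rw [map_smul, nrm, map_sum] at h
  simp only [trace_pm] at h
  have h2 : ((n * finrank ℂ (inv X g) : ℕ) : ℂ)
      = ((∑ k ∈ Finset.range n, Nat.card {x : X // g ^ k • x = x} : ℕ) : ℂ) := by
    push_cast
    rw [← h, smul_eq_mul, ← mul_assoc, mul_inv_cancel₀ hn', one_mul]
  exact_mod_cast h2

/-- `dim ker (nrm g n) + dim (invariants of g) = #X` if `g ^ n` acts trivially. -/
lemma finrank_ker_nrm_add {g : G} {n : ℕ} (hn : n ≠ 0) (hg : ∀ x : X, g ^ n • x = x) :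
    finrank ℂ (LinearMap.ker (nrm g n : (X → ℂ) →ₗ[ℂ] (X → ℂ))) + finrank ℂ (inv X g)
      = Fintype.card X := by
  have hn' : (n : ℂ)⁻¹ ≠ 0 := inv_ne_zero (Nat.cast_ne_zero.mpr hn)
  have h := Submodule.finrank_add_eq_of_isCompl (isProj_nrm hn hg).isCompl
  rw [LinearMap.ker_smul _ _ hn', Module.finrank_fintype_fun_eq_card] at h
  omega

end Trace

section Orbits

variable {G : Type*} [Group G] {X : Type*} [MulAction G X]

lemma zpow_invariant {g : G} {a : X → ℂ} (ha : pm g a = a) (k : ℤ) (x : X) :
    a (g ^ k • x) = a x := by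
  have h1 : ∀ y : X, a (g⁻¹ • y) = a y := fun y => congrFun ha y
  have h2 : ∀ y : X, a (g • y) = a y := fun y => by
    have := h1 (g • y)
    rw [inv_smul_smul] at this
    exact this.symm
  induction k using Int.induction_on generalizing x with
  | zero => simp
  | succ n ih =>
    rw [zpow_add_one, mul_smul, ih, h2]
  | pred n ih =>
    rw [zpow_sub_one, mul_smul, ih, h1]

/-- the dimension of the invariants of `g` is the number of orbits of `⟨g⟩`. -/
lemma finrank_inv_eq_card_orbits [Finite X] (g : G) :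
    finrank ℂ (inv X g) = Nat.card (MulAction.orbitRel.Quotient (Subgroup.zpowers g) X) := by
  classical
  haveI : Fintype X := Fintype.ofFinite X
  haveI : Fintype (MulAction.orbitRel.Quotient (Subgroup.zpowers g) X) := Fintype.ofFinite _
  set π : X → MulAction.orbitRel.Quotient (Subgroup.zpowers g) X := Quotient.mk'' with hπ
  have hπs : Function.Surjective π := Quotient.mk''_surjective
  set L : (MulAction.orbitRel.Quotient (Subgroup.zpowers g) X → ℂ) →ₗ[ℂ] (X → ℂ) :=
    LinearMap.funLeft ℂ ℂ π with hL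
  have hLinj : Function.Injective L := LinearMap.funLeft_injective_of_surjective ℂ ℂ π hπs
  have hrange : LinearMap.range L = inv X g := by
    apply le_antisymm
    · rintro _ ⟨f, rfl⟩
      rw [mem_inv]
      funext x
      show f (π (g⁻¹ • x)) = f (π x)
      congr 1
      apply Quotient.sound
      show (MulAction.orbitRel (Subgroup.zpowers g) X) (g⁻¹ • x) x
      rw [MulAction.orbitRel_apply]
      exact ⟨⟨g⁻¹, Subgroup.inv_mem _ (Subgroup.mem_zpowers g)⟩, rfl⟩
    · intro a ha
      rw [mem_inv] at ha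
      refine ⟨Quotient.lift a ?_, ?_⟩
      · intro x y hxy
        have hxy' : (MulAction.orbitRel (Subgroup.zpowers g) X) x y := hxy
        rw [MulAction.orbitRel_apply] at hxy'
        obtain ⟨⟨h, hh⟩, rfl⟩ := hxy'
        obtain ⟨k, rfl⟩ := Subgroup.mem_zpowers_iff.mp hh
        exact zpow_invariant ha k y
      · funext x
        rfl
  rw [← hrange, LinearMap.finrank_range_of_inj hLinj, Module.finrank_fintype_fun_eq_card,
    Nat.card_eq_fintype_card]

end Orbits

section Aug

variable {G : Type*} [Group G] {X : Type*} [MulAction G X]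

/-- if `(g - 1) V ⊆ W` for generators `g`, then for all `g`. -/
lemma pm_sub_mem_of_closure {gens : Set G} (hgen : Subgroup.closure gens = ⊤)
    (W : Submodule ℂ (X → ℂ)) (hW : ∀ g ∈ gens, ∀ v : X → ℂ, pm g v - v ∈ W)
    (g : G) (v : X → ℂ) : pm g v - v ∈ W := by
  have hg : g ∈ Subgroup.closure gens := by rw [hgen]; trivial
  induction hg using Subgroup.closure_induction generalizing v with
  | mem x hx => exact hW x hx v
  | one => simp [pm_one_apply]
  | mul x y _ _ ihx ihy =>
    have : pm (x * y) v - v = (pm x (pm y v) - pm y v) + (pm y v - v) := by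
      rw [pm_mul_apply]; abel
    rw [this]; exact W.add_mem (ihx _) (ihy _)
  | inv x _ ih =>
    have : pm x⁻¹ v - v = -(pm x (pm x⁻¹ v) - pm x⁻¹ v) := by
      rw [pm_pm_inv]; abel
    rw [this]; exact W.neg_mem (ih _)

/-- a function invariant under generators is invariant under everything. -/
lemma pm_eq_of_closure {gens : Set G} (hgen : Subgroup.closure gens = ⊤)
    {w : X → ℂ} (hw : ∀ g ∈ gens, pm g w = w) (g : G) : pm g w = w := by
  have hg : g ∈ Subgroup.closure gens := by rw [hgen]; trivial
  induction hg using Subgroup.closure_induction with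
  | mem x hx => exact hw x hx
  | one => exact pm_one_apply w
  | mul x y _ _ ihx ihy => rw [pm_mul_apply, ihy, ihx]
  | inv x _ ih =>
    conv_lhs => rw [← ih]
    exact pm_inv_pm x w

/-- a function invariant under generators of a transitive action is constant. -/
lemma const_of_closure [MulAction.IsPretransitive G X] {gens : Set G}
    (hgen : Subgroup.closure gens = ⊤)
    {w : X → ℂ} (hw : ∀ g ∈ gens, pm g w = w) (x y : X) : w x = w y := by
  obtain ⟨g, rfl⟩ := MulAction.exists_smul_eq G y x
  have h := congrFun (pm_eq_of_closure hgen hw g⁻¹) y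
  simpa using h

/-- the augmentation (sum of all values). -/
noncomputable def aug (X : Type*) [Fintype X] : (X → ℂ) →ₗ[ℂ] ℂ :=
  ∑ x : X, LinearMap.proj x

lemma aug_apply [Fintype X] (v : X → ℂ) : aug X v = ∑ x, v x := by
  simp [aug, LinearMap.sum_apply]

/-- for a transitive action, the augmentation kernel is contained in any subspace `W`
containing `(g - 1) V` for generators `g`. -/
lemma mem_of_aug_eq_zero [Fintype X] [MulAction.IsPretransitive G X] {gens : Set G}
    (hgen : Subgroup.closure gens = ⊤)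
    (W : Submodule ℂ (X → ℂ)) (hW : ∀ g ∈ gens, ∀ v : X → ℂ, pm g v - v ∈ W)
    (v : X → ℂ) (hv : aug X v = 0) : v ∈ W := by
  classical
  rw [aug_apply] at hv
  rcases isEmpty_or_nonempty X with hX | hX
  · have : v = 0 := Subsingleton.elim _ _
    rw [this]; exact W.zero_mem
  · obtain ⟨x₀⟩ := hX
    have hsingle : ∀ y : X, (Pi.single y (1 : ℂ) : X → ℂ) - Pi.single x₀ 1 ∈ W := by
      intro y
      obtain ⟨g, rfl⟩ := MulAction.exists_smul_eq G x₀ y
      have h := pm_sub_mem_of_closure hgen W hW g (Pi.single x₀ 1)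
      have h2 : pm g (Pi.single x₀ (1 : ℂ) : X → ℂ) = Pi.single (g • x₀) 1 := by
        funext x
        simp only [pm_apply, Pi.single_apply]
        by_cases hx : x = g • x₀
        · subst hx; simp
        · have : g⁻¹ • x ≠ x₀ := fun h' => hx (by rw [← h', smul_inv_smul])
          simp [hx, this]
      rwa [h2] at h
    have hv' : v = ∑ y : X, v y • ((Pi.single y (1 : ℂ) : X → ℂ) - Pi.single x₀ 1) := by
      funext x
      simp only [Finset.sum_apply, Pi.smul_apply, Pi.sub_apply, smul_eq_mul, mul_sub,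
        Finset.sum_sub_distrib, Pi.single_apply, mul_ite, mul_one, mul_zero]
      rw [Finset.sum_ite_eq Finset.univ x v]
      by_cases hx : x = x₀
      · simp [hx, hv]
      · simp [hx]
    rw [hv']
    exact W.sum_mem fun y _ => W.smul_mem _ (hsingle y)

/-- intersecting with the kernel of a functional drops the dimension by at most one. -/
lemma finrank_le_inf_ker_add_one {V : Type*} [AddCommGroup V] [Module ℂ V] [FiniteDimensional ℂ V]
    (P : Submodule ℂ V) (l : V →ₗ[ℂ] ℂ) :
    finrank ℂ P ≤ finrank ℂ (P ⊓ LinearMap.ker l : Submodule ℂ V) + 1 := by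
  have h1 := Submodule.finrank_sup_add_finrank_inf_eq P (LinearMap.ker l)
  have h2 := LinearMap.finrank_range_add_finrank_ker l
  have h3 : finrank ℂ (LinearMap.range l) ≤ 1 := by
    have := Submodule.finrank_le (LinearMap.range l)
    simpa using this
  have h4 : finrank ℂ (P ⊔ LinearMap.ker l : Submodule ℂ V) ≤ finrank ℂ V :=
    Submodule.finrank_le _
  omega

/-- on a finite set every group element has a positive power acting trivially. -/
lemma exists_pow_trivial [Finite X] (g : G) :
    ∃ m : ℕ, m ≠ 0 ∧ ∀ x : X, g ^ m • x = x := by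
  classical
  have : Fintype X := Fintype.ofFinite _
  refine ⟨orderOf (MulAction.toPermHom G X g), (orderOf_pos _).ne', fun x => ?_⟩
  have h := pow_orderOf_eq_one (MulAction.toPermHom G X g)
  rw [← map_pow] at h
  have h2 := congrArg (fun p : Equiv.Perm X => p x) h
  simpa using h2

end Aug

end Fermat.Agent.S21.H
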